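import Fermat.Agent.S27.H327.GrpSpec
import Fermat.Agent.S27.H323.Tensor
import Fermat.Agent.S27.H325.TensorDegFam

/-!
# Row S27, block GRP, G-ALG (helper327): `TensorAlg` from the algebra files of helper323/325
-/

set_option autoImplicit false
universe u
open scoped TensorProduct

namespace Fermat.Agent.S27.H327

open Fermat.Agent.S25 Fermat.Agent.S27

/-- **G-ALG**: the tensor algebra of gluing data on a curve chart over an algebraically
closed field. -/
theorem tensorAlg {k : Type u} [Field k] [IsAlgClosed k] {B₀ B₁ B₀₁ : Type u} [CommRing B₀]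
    [CommRing B₁] [CommRing B₀₁] [Algebra k B₀] [Algebra k B₁] [Algebra k B₀₁] [Algebra B₀ B₀₁]
    [Algebra B₁ B₀₁] [IsScalarTower k B₀ B₀₁] [IsScalarTower k B₁ B₀₁] {x : B₀} {y : B₁}
    {e : B₁ →ₐ[k] k} (hC : IsCurveChart k B₀ B₁ B₀₁ x y e) : TensorAlg k B₀ B₁ B₀₁ e where
  exists_tensor := fun A _ _ G G' hG hG' =>
    ⟨S25.H325.tensorGD G G', H323.isTensor_tensorGD_h323 G G',
      S27.H325.rigidifiable_tensorGD e hG.1 hG'.1, S27.H325.deg0_tensorGD hC hG.2 hG'.2⟩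
  tensor_iso := fun A _ _ G G' G'' H H' H'' h h' i i' =>
    H323.isTensor_isIso_of_isIso_h323 h h' i i'
  tensor_comm := fun A _ _ G G' G'' h => H323.isTensor_comm_h323 h
  tensor_assoc := fun A _ _ G₁ G₂ G₃ G₁₂ G₂₃ H h₁₂ h₂₃ hH =>
    H323.isTensor_assoc_isTensor_h323 h₁₂ hH h₂₃
  tensor_unit := fun A _ _ G => H323.isTensor_unit_left_h323 G
  good_unit := fun A _ _ => ⟨S27.H325.rigidifiable_unit e, S27.H325.deg0_unit⟩
  exists_inv := fun A _ _ G hG =>
    ⟨S25.H325.dualGD G, H323.isTensor_dual_left_h323 G,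
      S27.H325.rigidifiable_dualGD e hG.1, S27.H325.deg0_dualGD hC hG.2⟩
  tensor_bc := fun A A' _ _ _ _ φ G G' G'' H H' H'' h h₁ h₂ hH =>
    H323.isTensor_curveGD_isBC_h323 φ h h₁ h₂ hH

end Fermat.Agent.S27.H327
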