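import Fermat.Agent.S27.H327.GrpSpec
import Fermat.Agent.S27.H26.ExtendAlg

/-!
# Row S27, block GRP, G-FORMAL (helper327): the affine group law from the dictionary

`DictRel Ch hrep` packages what the S25 dictionary says about the relation
`Corr Ch A (hrep.poincare.pullbackAlong g).L G` between affine points `g` of the Jacobian and
gluing data `G` (proved in `H327/GrpRel.lean`).  From `DictRel` and `TensorAlg` we build a
commutative `H26.AlgGroupLaw` on the Jacobian whose multiplication is the tensor product of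
gluing data.
-/

set_option autoImplicit false
universe u
open CategoryTheory CategoryTheory.Limits AlgebraicGeometry AlgebraicGeometry.RelPicard
  NeronModelInfra GoodReductionJacobian
open scoped TensorProduct

namespace Fermat.Agent.S27.H327

open Fermat.Agent.S25 Fermat.Agent.S27

noncomputable section

variable {k : Type u} [Field k] {C : Scheme.{u}} {c : C ⟶ Spec (CommRingCat.of k)}
  {ε : SchemeHomOver (𝟙 (Spec (CommRingCat.of k))) c}

/-- The dictionary relation between affine points of the Jacobian and gluing data. -/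
def PtRel (Ch : ChartOf c ε) {D : RelativePic0Designation k c}
    (hrep : RepresentsRelSubPic c ε (algEquivZeroCut c ε) D)
    (A : Type u) [CommRing A] [Algebra k A] (g : SchemeHomOver (specStr k A) D.toBase)
    (G : CurveGD k Ch.B₀ Ch.B₁ Ch.B₀₁ A) : Prop :=
  Corr Ch A (hrep.poincare.pullbackAlong g).L G

/-- What the S25 dictionary says about `PtRel`. -/
structure DictRel (Ch : ChartOf c ε) {D : RelativePic0Designation k c}
    (hrep : RepresentsRelSubPic c ε (algEquivZeroCut c ε) D) : Prop where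
  exists_good : ∀ (A : Type u) [CommRing A] [Algebra k A]
    (g : SchemeHomOver (specStr k A) D.toBase),
    ∃ G : CurveGD k Ch.B₀ Ch.B₁ Ch.B₀₁ A, PtRel Ch hrep A g G ∧ Good Ch.e G
  exists_point : ∀ (A : Type u) [CommRing A] [Algebra k A] (G : CurveGD k Ch.B₀ Ch.B₁ Ch.B₀₁ A),
    Good Ch.e G → ∃ g : SchemeHomOver (specStr k A) D.toBase, PtRel Ch hrep A g G
  eq_iff : ∀ (A : Type u) [CommRing A] [Algebra k A]
    (g g' : SchemeHomOver (specStr k A) D.toBase) (G G' : CurveGD k Ch.B₀ Ch.B₁ Ch.B₀₁ A),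
    PtRel Ch hrep A g G → PtRel Ch hrep A g' G' → (g = g' ↔ G.IsIso G')
  of_isIso : ∀ (A : Type u) [CommRing A] [Algebra k A]
    (g : SchemeHomOver (specStr k A) D.toBase) (G G' : CurveGD k Ch.B₀ Ch.B₁ Ch.B₀₁ A),
    PtRel Ch hrep A g G → G.IsIso G' → PtRel Ch hrep A g G'
  bc : ∀ (A A' : Type u) [CommRing A] [Algebra k A] [CommRing A'] [Algebra k A']
    (φ : A →ₐ[k] A') (g : SchemeHomOver (specStr k A) D.toBase)
    (G : CurveGD k Ch.B₀ Ch.B₁ Ch.B₀₁ A) (G' : CurveGD k Ch.B₀ Ch.B₁ Ch.B₀₁ A'),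
    PtRel Ch hrep A g G → CurveGD.IsBC φ G G' → PtRel Ch hrep A' (affPull φ g) G'
  bc_exists : ∀ (A A' : Type u) [CommRing A] [Algebra k A] [CommRing A'] [Algebra k A']
    (φ : A →ₐ[k] A') (G : CurveGD k Ch.B₀ Ch.B₁ Ch.B₀₁ A),
    ∃ G' : CurveGD k Ch.B₀ Ch.B₁ Ch.B₀₁ A', CurveGD.IsBC φ G G'

namespace DictRel

variable {Ch : ChartOf c ε} {D : RelativePic0Designation k c}
  {hrep : RepresentsRelSubPic c ε (algEquivZeroCut c ε) D}
  (R : DictRel Ch hrep) (T : TensorAlg k Ch.B₀ Ch.B₁ Ch.B₀₁ Ch.e)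

include R in
/-- A point is determined by any of its gluing data. -/
theorem point_unique {A : Type u} [CommRing A] [Algebra k A]
    {g g' : SchemeHomOver (specStr k A) D.toBase} {G : CurveGD k Ch.B₀ Ch.B₁ Ch.B₀₁ A}
    (h : PtRel Ch hrep A g G) (h' : PtRel Ch hrep A g' G) : g = g' :=
  (R.eq_iff A g g' G G h h').2 ((R.eq_iff A g g G G h h).1 rfl)

include R T in
theorem exists_mul (A : Type u) [CommRing A] [Algebra k A]
    (g g' : SchemeHomOver (specStr k A) D.toBase) :
    ∃ g'' : SchemeHomOver (specStr k A) D.toBase,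
      ∀ G G' G'' : CurveGD k Ch.B₀ Ch.B₁ Ch.B₀₁ A, PtRel Ch hrep A g G → PtRel Ch hrep A g' G' →
        IsTensor G G' G'' → PtRel Ch hrep A g'' G'' := by
  obtain ⟨G₁, h₁, hg₁⟩ := R.exists_good A g
  obtain ⟨G₁', h₁', hg₁'⟩ := R.exists_good A g'
  obtain ⟨G₁'', ht, hg''⟩ := T.exists_tensor A G₁ G₁' hg₁ hg₁'
  obtain ⟨g'', h''⟩ := R.exists_point A G₁'' hg''
  refine ⟨g'', fun G G' G'' h h' htt => ?_⟩
  have i : G₁.IsIso G := (R.eq_iff A g g G₁ G h₁ h).1 rfl
  have i' : G₁'.IsIso G' := (R.eq_iff A g' g' G₁' G' h₁' h').1 rfl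
  exact R.of_isIso A g'' G₁'' G'' h'' (T.tensor_iso A _ _ _ _ _ _ ht htt i i')

/-- The product of two affine points: the point of the tensor product of their data. -/
def mul (A : Type u) [CommRing A] [Algebra k A]
    (g g' : SchemeHomOver (specStr k A) D.toBase) : SchemeHomOver (specStr k A) D.toBase :=
  (R.exists_mul T A g g').choose

theorem mul_spec {A : Type u} [CommRing A] [Algebra k A]
    {g g' : SchemeHomOver (specStr k A) D.toBase} {G G' G'' : CurveGD k Ch.B₀ Ch.B₁ Ch.B₀₁ A}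
    (h : PtRel Ch hrep A g G) (h' : PtRel Ch hrep A g' G') (ht : IsTensor G G' G'') :
    PtRel Ch hrep A (R.mul T A g g') G'' :=
  (R.exists_mul T A g g').choose_spec G G' G'' h h' ht

/-- The neutral point: the point of the unit datum. -/
def one (A : Type u) [CommRing A] [Algebra k A] : SchemeHomOver (specStr k A) D.toBase :=
  (R.exists_point A (unitGD k Ch.B₀ Ch.B₁ Ch.B₀₁ A) (T.good_unit A)).choose

theorem one_spec (A : Type u) [CommRing A] [Algebra k A] :
    PtRel Ch hrep A (R.one T A) (unitGD k Ch.B₀ Ch.B₁ Ch.B₀₁ A) :=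
  (R.exists_point A (unitGD k Ch.B₀ Ch.B₁ Ch.B₀₁ A) (T.good_unit A)).choose_spec

include R T in
theorem exists_inv (A : Type u) [CommRing A] [Algebra k A]
    (g : SchemeHomOver (specStr k A) D.toBase) :
    ∃ g' : SchemeHomOver (specStr k A) D.toBase, ∃ G G' : CurveGD k Ch.B₀ Ch.B₁ Ch.B₀₁ A,
      PtRel Ch hrep A g G ∧ PtRel Ch hrep A g' G' ∧
        IsTensor G' G (unitGD k Ch.B₀ Ch.B₁ Ch.B₀₁ A) := by
  obtain ⟨G, h, hg⟩ := R.exists_good A g
  obtain ⟨G', ht, hg'⟩ := T.exists_inv A G hg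
  obtain ⟨g', h'⟩ := R.exists_point A G' hg'
  exact ⟨g', G, G', h, h', ht⟩

/-- The inverse of an affine point: the point of the dual datum. -/
def inv (A : Type u) [CommRing A] [Algebra k A]
    (g : SchemeHomOver (specStr k A) D.toBase) : SchemeHomOver (specStr k A) D.toBase :=
  (R.exists_inv T A g).choose

theorem mul_comm' (A : Type u) [CommRing A] [Algebra k A]
    (g g' : SchemeHomOver (specStr k A) D.toBase) : R.mul T A g g' = R.mul T A g' g := by
  obtain ⟨G, h, hg⟩ := R.exists_good A g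
  obtain ⟨G', h', hg'⟩ := R.exists_good A g'
  obtain ⟨G'', ht, -⟩ := T.exists_tensor A G G' hg hg'
  exact R.point_unique (R.mul_spec T h h' ht) (R.mul_spec T h' h (T.tensor_comm A _ _ _ ht))

theorem mul_assoc' (A : Type u) [CommRing A] [Algebra k A]
    (g₁ g₂ g₃ : SchemeHomOver (specStr k A) D.toBase) :
    R.mul T A (R.mul T A g₁ g₂) g₃ = R.mul T A g₁ (R.mul T A g₂ g₃) := by
  obtain ⟨G₁, h₁, hg₁⟩ := R.exists_good A g₁
  obtain ⟨G₂, h₂, hg₂⟩ := R.exists_good A g₂
  obtain ⟨G₃, h₃, hg₃⟩ := R.exists_good A g₃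
  obtain ⟨G₁₂, ht₁₂, hg₁₂⟩ := T.exists_tensor A G₁ G₂ hg₁ hg₂
  obtain ⟨G₂₃, ht₂₃, -⟩ := T.exists_tensor A G₂ G₃ hg₂ hg₃
  obtain ⟨H, htH, -⟩ := T.exists_tensor A G₁₂ G₃ hg₁₂ hg₃
  have h₁₂ := R.mul_spec T h₁ h₂ ht₁₂
  have h₂₃ := R.mul_spec T h₂ h₃ ht₂₃
  exact R.point_unique (R.mul_spec T h₁₂ h₃ htH)
    (R.mul_spec T h₁ h₂₃ (T.tensor_assoc A _ _ _ _ _ _ ht₁₂ ht₂₃ htH))

theorem one_mul' (A : Type u) [CommRing A] [Algebra k A]
    (g : SchemeHomOver (specStr k A) D.toBase) : R.mul T A (R.one T A) g = g := by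
  obtain ⟨G, h, -⟩ := R.exists_good A g
  exact R.point_unique (R.mul_spec T (R.one_spec T A) h (T.tensor_unit A G)) h

theorem inv_mul_cancel' (A : Type u) [CommRing A] [Algebra k A]
    (g : SchemeHomOver (specStr k A) D.toBase) :
    R.mul T A (R.inv T A g) g = R.one T A := by
  obtain ⟨G, G', h, h', ht⟩ := (R.exists_inv T A g).choose_spec
  exact R.point_unique (R.mul_spec T h' h ht) (R.one_spec T A)

theorem mul_natural' (A A' : Type u) [CommRing A] [Algebra k A] [CommRing A'] [Algebra k A']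
    (φ : A →ₐ[k] A') (g g' : SchemeHomOver (specStr k A) D.toBase) :
    affPull φ (R.mul T A g g') = R.mul T A' (affPull φ g) (affPull φ g') := by
  obtain ⟨G, h, hg⟩ := R.exists_good A g
  obtain ⟨G', h', hg'⟩ := R.exists_good A g'
  obtain ⟨G'', ht, -⟩ := T.exists_tensor A G G' hg hg'
  obtain ⟨H, hH⟩ := R.bc_exists A A' φ G
  obtain ⟨H', hH'⟩ := R.bc_exists A A' φ G'
  obtain ⟨H'', hH''⟩ := R.bc_exists A A' φ G''
  exact R.point_unique (R.bc A A' φ _ G'' H'' (R.mul_spec T h h' ht) hH'')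
    (R.mul_spec T (R.bc A A' φ g G H h hH) (R.bc A A' φ g' G' H' h' hH')
      (T.tensor_bc A A' φ G G' G'' H H' H'' ht hH hH' hH''))

theorem mul_one' (A : Type u) [CommRing A] [Algebra k A]
    (g : SchemeHomOver (specStr k A) D.toBase) : R.mul T A g (R.one T A) = g := by
  rw [R.mul_comm' T A, R.one_mul' T A]

/-- **G-FORMAL**: the group law of the Jacobian on points with values in `k`-algebras. -/
def algLaw : H26.AlgGroupLaw k D.toBase where
  mul := fun A _ _ => R.mul T A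
  one := fun A _ _ => R.one T A
  inv := fun A _ _ => R.inv T A
  mul_assoc := fun A _ _ => R.mul_assoc' T A
  one_mul := fun A _ _ => R.one_mul' T A
  mul_one := fun A _ _ => R.mul_one' T A
  inv_mul_cancel := fun A _ _ => R.inv_mul_cancel' T A
  mul_natural := fun A A' _ _ _ _ => R.mul_natural' T A A'

theorem algLaw_mul (A : Type u) [CommRing A] [Algebra k A]
    (g g' : SchemeHomOver (specStr k A) D.toBase) :
    (R.algLaw T).mul A g g' = R.mul T A g g' := rfl

end DictRel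

end

end Fermat.Agent.S27.H327
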