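import Fermat.Agent.S27.H327.GrpLaw
import Fermat.Agent.S25.Assembly.Final
import Fermat.Agent.S25.H327.PullbackComp

/-!
# Row S27, block GRP (helper327): the dictionary relation `DictRel`

`dictRel Ch hrep : DictRel Ch hrep` — from the S25 dictionary (`DictSections`, `DictGlue`,
`DictIso`, `DictBC`, `DictDeg`, `AlgBCExists`, all proved on main) and the universal property
of the Jacobian.
-/

set_option autoImplicit false
universe u
open CategoryTheory CategoryTheory.Limits AlgebraicGeometry AlgebraicGeometry.RelPicard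
  NeronModelInfra GoodReductionJacobian
open scoped TensorProduct

namespace Fermat.Agent.S27.H327

open Fermat.Agent.S25 Fermat.Agent.S27

noncomputable section

variable {k : Type u} [Field k] {C : Scheme.{u}} {c : C ⟶ Spec (CommRingCat.of k)}
  {ε : SchemeHomOver (𝟙 (Spec (CommRingCat.of k))) c}

/-- `Corr` is invariant under isomorphisms of gluing data. -/
theorem corr_of_isIso (Ch : ChartOf c ε) (A : Type u) [CommRing A] [Algebra k A]
    (L : (pullback c (specStr k A)).Modules) (G G' : CurveGD k Ch.B₀ Ch.B₁ Ch.B₀₁ A)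
    (h : Corr Ch A L G) (i : G.IsIso G') : Corr Ch A L G' := by
  obtain ⟨e₀, e₁, e₀₁, h₀, h₁, h₀₁, hr₀, hr₁⟩ := h
  obtain ⟨⟨f₀, f₁, f₀₁, c₀, c₁⟩⟩ := i
  refine ⟨e₀.trans f₀.toAddEquiv, e₁.trans f₁.toAddEquiv, e₀₁.trans f₀₁.toAddEquiv,
    ⟨fun a s => ?_, fun b s => ?_⟩, ⟨fun a s => ?_, fun b s => ?_⟩,
    ⟨fun a s => ?_, fun b s => ?_⟩, fun s => ?_, fun s => ?_⟩
  · change f₀ (e₀ _) = _ • f₀ (e₀ s)
    rw [h₀.1 a s, map_smul]
  · change f₀ (e₀ _) = _ • f₀ (e₀ s)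
    rw [h₀.2 b s, map_smul]
  · change f₁ (e₁ _) = _ • f₁ (e₁ s)
    rw [h₁.1 a s, map_smul]
  · change f₁ (e₁ _) = _ • f₁ (e₁ s)
    rw [h₁.2 b s, map_smul]
  · change f₀₁ (e₀₁ _) = _ • f₀₁ (e₀₁ s)
    rw [h₀₁.1 a s, map_smul]
  · change f₀₁ (e₀₁ _) = _ • f₀₁ (e₀₁ s)
    rw [h₀₁.2 b s, map_smul]
  · change f₀₁ (e₀₁ _) = G'.r₀ (f₀ (e₀ s))
    rw [hr₀ s, c₀]
  · change f₀₁ (e₀₁ _) = G'.r₁ (f₁ (e₁ s))
    rw [hr₁ s, c₁]

/-- `Corr` is invariant under isomorphisms of (rigidified) line bundles. -/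
theorem corr_of_rIso (Ch : ChartOf c ε) (A : Type u) [CommRing A] [Algebra k A]
    (M M' : RigidifiedLineBundle c ε (specStr k A)) (G : CurveGD k Ch.B₀ Ch.B₁ Ch.B₀₁ A)
    (h : Corr Ch A M.L G) (i : RIso M M') : Corr Ch A M'.L G := by
  obtain ⟨G', hG', -⟩ := H505.dictSections Ch A M'
  exact corr_of_isIso Ch A M'.L G' G hG'
    ((H986.dictIso Ch A M' M G' G hG' h).1 (H327.rIso_symm i))

/-- **DICT-DEG** for a chart of a curve (as in the S25 assembly). -/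
theorem dictDeg_chart [IsAlgClosed k] [IsProper c] [SmoothOfRelativeDimension 1 c]
    [IsIntegral C] (Ch : ChartOf c ε) : Stmt.DictDeg Ch := by
  have hSheafGlue : Stmt.SheafGlue c ε := H146.sheafGlue k c ε
  have hAA2 : H747.StmtAA2 k Ch.B₀ Ch.B₁ Ch.B₀₁ := H927.stmtAA2
  have hAA6 : H747.StmtAA6 k Ch.B₀ Ch.B₁ Ch.B₀₁ := H206.stmtAA6 k Ch.B₀ Ch.B₁ Ch.B₀₁
  have hGlue : Stmt.DictGlue Ch := H505.dictGlue Ch
  have hSec : Stmt.DictSections Ch := H505.dictSections Ch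
  have hUnit : H687.DictUnit Ch := fun A _ _ => H566.dictUnit Ch A
  have hIso : Stmt.DictIso Ch := H986.dictIso Ch
  have hBC : Stmt.DictBC Ch := H505.dictBC Ch
  have hEx : Stmt.AlgBCExists Ch := H265.algBCExists Ch
  have hId : H687.BCId k Ch.B₀ Ch.B₁ Ch.B₀₁ := fun A _ _ G => H265.curveGD_isBC_id G
  have hComp : H687.BCComp k Ch.B₀ Ch.B₁ Ch.B₀₁ :=
    fun A A' A'' _ _ _ _ _ _ φ ψ G G' G'' h h' => H265.curveGD_isBC_comp h h'
  have hDegIso : H687.DegIso k Ch.B₀ Ch.B₁ Ch.B₀₁ :=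
    fun K _ _ G G' h => H265.degree_eq_of_isIso h
  have hDegConst : H687.DegConst k Ch.B₀ Ch.B₁ Ch.B₀₁ := H550.degConst
  have hAA4 : H747.StmtAA4 k Ch.B₀ Ch.B₁ Ch.B₀₁ := fun x y e hC g A _ _ P 𝔭 h𝔭 =>
    H266.abelDatum_locRig_of_isBC e g A P (fun A' _ _ ψ => hAA2 x y e hC g A A' ψ P) 𝔭 h𝔭
  obtain ⟨𝔉⟩ := H747.algAbel_of_leaves hAA2 hAA4 hAA6 Ch.x Ch.y Ch.e Ch.isCurveChart
  have hAbelAlg : H687.AbelAlg Ch :=
    H567.abelAlg Ch 𝔉 hSheafGlue (H146.sheafSep k c ε) hGlue hIso hBC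
      (fun A _ _ => H566.dictUnit Ch A)
  exact H687.dictDeg_final Ch hSec hIso hBC hEx hUnit hId hComp hDegIso hDegConst hAbelAlg

/-- **The dictionary relation** between affine points of the Jacobian and gluing data. -/
theorem dictRel [IsAlgClosed k] [IsProper c] [SmoothOfRelativeDimension 1 c] [IsIntegral C]
    (Ch : ChartOf c ε) {D : RelativePic0Designation k c}
    (hrep : RepresentsRelSubPic c ε (algEquivZeroCut c ε) D) : DictRel Ch hrep := by
  have hDeg : Stmt.DictDeg Ch := dictDeg_chart Ch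
  have hmem : ∀ (A : Type u) [CommRing A] [Algebra k A]
      (g : SchemeHomOver (specStr k A) D.toBase),
      FibrewiseAlgEquivZero (hrep.poincare.pullbackAlong g) := fun A _ _ g =>
    FibrewiseAlgEquivZero.pullback g hrep.poincare_mem
  refine ⟨fun A _ _ g => ?_, fun A _ _ G hG => ?_, fun A _ _ g g' G G' h h' => ⟨?_, ?_⟩,
    fun A _ _ g G G' h i => corr_of_isIso Ch A _ G G' h i,
    fun A A' _ _ _ _ φ g G G' h hBC => ?_, fun A A' _ _ _ _ φ G => H265.algBCExists Ch A A' φ G⟩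
  · obtain ⟨G, hG, hrig⟩ := H505.dictSections Ch A (hrep.poincare.pullbackAlong g)
    exact ⟨G, hG, hrig, (hDeg A _ G hG).1 (hmem A g)⟩
  · obtain ⟨M, hM⟩ := H505.dictGlue Ch A G hG.1
    have hM0 : FibrewiseAlgEquivZero M := (hDeg A M G hM).2 hG.2
    refine ⟨hrep.classify (specStr k A) M hM0, ?_⟩
    exact corr_of_rIso Ch A M _ G hM
      (H327.rIso_symm (hrep.classify_spec (specStr k A) M hM0))
  · rintro rfl
    exact (H986.dictIso Ch A _ _ G G' h h').1 (H327.rIso_refl _)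
  · intro i
    exact hrep.ext_of_iso (specStr k A) g g' ((H986.dictIso Ch A _ _ G G' h h').2 i)
  · have h1 := H505.dictBC Ch A A' φ (hrep.poincare.pullbackAlong g) G G' h hBC
    exact corr_of_rIso Ch A' _ (hrep.poincare.pullbackAlong (affPull φ g)) G' h1
      (H327.rIso_symm (H327.rIso_pullbackAlong_comp hrep.poincare g (specHomOver k φ)))

end

end Fermat.Agent.S27.H327
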