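import Fermat.Agent.S27.Spec

/-!
# Row S27, block GRP: frozen sub-interface (sub-architect helper327)

`Stmt.Grp k` (see `Fermat/Agent/S27/Spec.lean`) is proved in `H327/GrpTop.lean` from

* `TensorAlg`  — G-ALG: the algebra of `IsTensor` on `CurveGD`, proved in `H327/GrpAlg.lean`
                 from `S27/H323/Tensor.lean` and `S27/H325/TensorDegFam.lean`;
* EXT          — `S27/H26/ExtendAlg.lean` (helper26): a natural group law on the points with
                 values in `k`-algebras extends to a `RelativeGroupLaw`;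
* the dictionary relation `DictRel` (`H327/GrpRel.lean`, from the S25 dictionary) and the
  group law on algebra-valued points (`H327/GrpLaw.lean`).

Only definitions here.
-/

set_option autoImplicit false
universe u
open CategoryTheory CategoryTheory.Limits AlgebraicGeometry AlgebraicGeometry.RelPicard
  NeronModelInfra GoodReductionJacobian
open scoped TensorProduct

namespace Fermat.Agent.S27.H327

open Fermat.Agent.S25 Fermat.Agent.S27

noncomputable section

/-- Base change of an algebra-valued point along `φ : A → A'`. -/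
abbrev affPull {k : Type u} [Field k] {J : Scheme.{u}} {f : J ⟶ Spec (CommRingCat.of k)}
    {A A' : Type u} [CommRing A] [Algebra k A] [CommRing A'] [Algebra k A'] (φ : A →ₐ[k] A')
    (x : SchemeHomOver (specStr k A) f) : SchemeHomOver (specStr k A') f :=
  schemeHomOverComp (specHomOver k φ).1 (specHomOver k φ).2 x

/-! ## G-ALG: the algebra of tensor products of gluing data on a curve chart -/

section TensorAlg

variable (k : Type u) [Field k] (B₀ B₁ B₀₁ : Type u) [CommRing B₀] [CommRing B₁] [CommRing B₀₁]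
  [Algebra k B₀] [Algebra k B₁] [Algebra k B₀₁] [Algebra B₀ B₀₁] [Algebra B₁ B₀₁]
  [IsScalarTower k B₀ B₀₁] [IsScalarTower k B₁ B₀₁]

/-- The unit gluing datum on `C_A`. -/
abbrev unitGD (A : Type u) [CommRing A] [Algebra k A] : CurveGD k B₀ B₁ B₀₁ A :=
  GlueDatum.unit A (A ⊗[k] B₀) (A ⊗[k] B₁) (A ⊗[k] B₀₁)

/-- A gluing datum is *good*: rigidifiable and of degree zero on every fibre. -/
def Good {k : Type u} [Field k] {B₀ B₁ B₀₁ : Type u} [CommRing B₀] [CommRing B₁] [CommRing B₀₁]
    [Algebra k B₀] [Algebra k B₁] [Algebra k B₀₁] [Algebra B₀ B₀₁] [Algebra B₁ B₀₁]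
    [IsScalarTower k B₀ B₀₁] [IsScalarTower k B₁ B₀₁] (e : B₁ →ₐ[k] k)
    {A : Type u} [CommRing A] [Algebra k A] (G : CurveGD k B₀ B₁ B₀₁ A) : Prop :=
  G.Rigidifiable e ∧ G.Deg0

/-- Everything the group law needs from the algebra of `IsTensor` (all statements are about
`CurveGD k B₀ B₁ B₀₁ A`, `A` any `k`-algebra). -/
structure TensorAlg (e : B₁ →ₐ[k] k) : Prop where
  /-- tensor products of good data exist and are good -/
  exists_tensor : ∀ (A : Type u) [CommRing A] [Algebra k A] (G G' : CurveGD k B₀ B₁ B₀₁ A),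
    Good e G → Good e G' → ∃ G'' : CurveGD k B₀ B₁ B₀₁ A, IsTensor G G' G'' ∧ Good e G''
  /-- tensor products are unique up to isomorphism and respect isomorphisms -/
  tensor_iso : ∀ (A : Type u) [CommRing A] [Algebra k A]
    (G G' G'' H H' H'' : CurveGD k B₀ B₁ B₀₁ A), IsTensor G G' G'' → IsTensor H H' H'' →
      G.IsIso H → G'.IsIso H' → G''.IsIso H''
  tensor_comm : ∀ (A : Type u) [CommRing A] [Algebra k A] (G G' G'' : CurveGD k B₀ B₁ B₀₁ A),
    IsTensor G G' G'' → IsTensor G' G G''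
  /-- `H = (G₁ ⊗ G₂) ⊗ G₃` is also `G₁ ⊗ (G₂ ⊗ G₃)` -/
  tensor_assoc : ∀ (A : Type u) [CommRing A] [Algebra k A]
    (G₁ G₂ G₃ G₁₂ G₂₃ H : CurveGD k B₀ B₁ B₀₁ A), IsTensor G₁ G₂ G₁₂ → IsTensor G₂ G₃ G₂₃ →
      IsTensor G₁₂ G₃ H → IsTensor G₁ G₂₃ H
  tensor_unit : ∀ (A : Type u) [CommRing A] [Algebra k A] (G : CurveGD k B₀ B₁ B₀₁ A),
    IsTensor (unitGD k B₀ B₁ B₀₁ A) G G
  good_unit : ∀ (A : Type u) [CommRing A] [Algebra k A], Good e (unitGD k B₀ B₁ B₀₁ A)
  /-- inverses (dual data) of good data exist and are good -/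
  exists_inv : ∀ (A : Type u) [CommRing A] [Algebra k A] (G : CurveGD k B₀ B₁ B₀₁ A),
    Good e G → ∃ G' : CurveGD k B₀ B₁ B₀₁ A, IsTensor G' G (unitGD k B₀ B₁ B₀₁ A) ∧ Good e G'
  /-- tensor products commute with base change -/
  tensor_bc : ∀ (A A' : Type u) [CommRing A] [Algebra k A] [CommRing A'] [Algebra k A']
    (φ : A →ₐ[k] A') (G G' G'' : CurveGD k B₀ B₁ B₀₁ A) (H H' H'' : CurveGD k B₀ B₁ B₀₁ A'),
    IsTensor G G' G'' → CurveGD.IsBC φ G H → CurveGD.IsBC φ G' H' → CurveGD.IsBC φ G'' H'' →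
      IsTensor H H' H''

end TensorAlg

end

end Fermat.Agent.S27.H327
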