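import Fermat.Agent.S27.H327.GrpLaw
import Fermat.Agent.S27.H327.GrpRel
import Fermat.Agent.S27.H327.GrpAlg

/-!
# Row S27, block GRP (helper327): `grp : Stmt.Grp k`

The Jacobian of a curve carries a commutative group law which on affine test schemes is the
tensor product of gluing data.  Assembly of

* G-ALG  : `tensorAlg` (`GrpAlg.lean`; algebra of helper323, helper325),
* DICT   : `dictRel` (`GrpRel.lean`; the S25 dictionary),
* FORMAL : `DictRel.algLaw` (`GrpLaw.lean`),
* EXT    : `H26.AlgGroupLaw.exists_relativeGroupLaw` (helper26).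
-/

set_option autoImplicit false
universe u
open CategoryTheory CategoryTheory.Limits AlgebraicGeometry AlgebraicGeometry.RelPicard
  NeronModelInfra GoodReductionJacobian
open scoped TensorProduct

namespace Fermat.Agent.S27.H327

open Fermat.Agent.S25 Fermat.Agent.S27

/-- **GRP** (leaf of row S27, exact Spec shape). -/
theorem grp (k : Type u) [Field k] : Stmt.Grp k := by
  intro _ C c _ _ _ ε Ch D hrep
  have R : DictRel Ch hrep := dictRel Ch hrep
  have T : TensorAlg k Ch.B₀ Ch.B₁ Ch.B₀₁ Ch.e := tensorAlg Ch.isCurveChart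
  obtain ⟨L, hmul, hcomm⟩ := (R.algLaw T).exists_relativeGroupLaw
  refine ⟨L, hcomm (fun A _ _ x y => R.mul_comm' T A x y), fun A _ _ g g' G G' G'' h h' ht => ?_⟩
  rw [hmul A g g']
  exact R.mul_spec T h h' ht

end Fermat.Agent.S27.H327
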